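import Mathlib

/-!
# S16, package U-T (helper77): formal cores of the weight-4 trace relations

Pure power-series algebra over `ℂ`; no modular forms.  `a` is the `q`-expansion of a form
`G ∈ M₂(Γ₀(p))` with `a₀ = 1`, `Up p a` the expansion of `U_p G`, and the hypotheses `hTr`, `hTr'`
are the coefficient form of the trace identity
`p · G² + U_p((U_p G)²) = (p + 1) · E₄` for `G` and for its twin `U_p G`
(`Tr(G²) ∈ M₄(SL₂(ℤ)) = ℂ · E₄`).  `V` is ANY subring of `ℂ` in which `ℓ` is not invertible.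

* `core_T1` : `ℓ = 3`, `p ≡ 1 mod 3`: no such `a` with `a ≡ 1 mod 3V`.
* `core_T2` : `ℓ = 2`, `p ≡ 1 mod 4`: no such `a` with `a ≡ 1 mod 4V`.
* `core_I`  : the relation `m ∣ (p² - 1) / 24` (coefficient of `q¹` of `Tr(g · f) = 0`).
-/

set_option autoImplicit false

namespace Fermat.Agent.S16.H77

open PowerSeries

/-- The operator `U_p` on formal power series: `a_n ↦ a_{pn}`. -/
noncomputable def Up (p : ℕ) (f : PowerSeries ℂ) : PowerSeries ℂ :=
  PowerSeries.mk fun n => coeff (p * n) f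

@[simp] theorem coeff_Up (p n : ℕ) (f : PowerSeries ℂ) :
    coeff n (Up p f) = coeff (p * n) f := by
  simp [Up]

theorem Up_add (p : ℕ) (f g : PowerSeries ℂ) : Up p (f + g) = Up p f + Up p g := by
  ext n; simp

theorem Up_C_mul (p : ℕ) (c : ℂ) (f : PowerSeries ℂ) : Up p (C c * f) = C c * Up p f := by
  ext n; simp

theorem Up_one {p : ℕ} (hp : p ≠ 0) : Up p (1 : PowerSeries ℂ) = 1 := by
  ext n
  simp [coeff_one, hp]

/-- All coefficients lie in the subring `V`. -/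
def CoeffIn (V : Subring ℂ) (f : PowerSeries ℂ) : Prop := ∀ n, coeff n f ∈ V

theorem CoeffIn.mul {V : Subring ℂ} {f g : PowerSeries ℂ} (hf : CoeffIn V f) (hg : CoeffIn V g) :
    CoeffIn V (f * g) := by
  intro n
  rw [coeff_mul]
  exact Subring.sum_mem _ fun x _ => V.mul_mem (hf _) (hg _)

theorem CoeffIn.add {V : Subring ℂ} {f g : PowerSeries ℂ} (hf : CoeffIn V f) (hg : CoeffIn V g) :
    CoeffIn V (f + g) := by
  intro n
  rw [map_add]
  exact V.add_mem (hf _) (hg _)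

theorem CoeffIn.C_mul {V : Subring ℂ} {c : ℂ} {f : PowerSeries ℂ} (hc : c ∈ V)
    (hf : CoeffIn V f) : CoeffIn V (C c * f) := by
  intro n
  rw [coeff_C_mul]
  exact V.mul_mem hc (hf _)

theorem CoeffIn.Up {V : Subring ℂ} {f : PowerSeries ℂ} (hf : CoeffIn V f) (p : ℕ) :
    CoeffIn V (Up p f) := by
  intro n
  rw [coeff_Up]
  exact hf _

/-- The quadratic remainder `p · H² + U_p((U_p H)²)`. -/
noncomputable def Zs (p : ℕ) (H : PowerSeries ℂ) : PowerSeries ℂ :=
  C (p : ℂ) * (H * H) + Up p (Up p H * Up p H)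

theorem CoeffIn.Zs {V : Subring ℂ} {H : PowerSeries ℂ} (hH : CoeffIn V H) (p : ℕ) :
    CoeffIn V (Zs p H) :=
  ((hH.mul hH).C_mul (natCast_mem V p)).add (((hH.Up p).mul (hH.Up p)).Up p)

/-- Expansion of the trace identity for `a = 1 + c · H`. -/
theorem expand_identity {p : ℕ} (hp : p ≠ 0) (e4 a H : PowerSeries ℂ) (c : ℂ)
    (ha : a = 1 + C c * H) (hW : Up p (Up p H) = H)
    (hTr : ∀ n, (p : ℂ) * coeff n (a * a) + coeff (p * n) (Up p a * Up p a) =
      ((p : ℂ) + 1) * coeff n e4) :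
    C ((p : ℂ) + 1) * e4 =
      C ((p : ℂ) + 1) + C (2 * c * ((p : ℂ) + 1)) * H + C (c ^ 2) * Zs p H := by
  have hser : C (p : ℂ) * (a * a) + Up p (Up p a * Up p a) = C ((p : ℂ) + 1) * e4 := by
    ext n
    rw [map_add (coeff n), coeff_C_mul, coeff_C_mul, coeff_Up]
    exact hTr n
  have hUa : Up p a = 1 + C c * Up p H := by rw [ha, Up_add, Up_one hp, Up_C_mul]
  have hsq : (1 + C c * Up p H) * (1 + C c * Up p H) =
      1 + C (2 * c) * Up p H + C (c ^ 2) * (Up p H * Up p H) := by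
    simp only [map_mul, map_pow, map_ofNat]
    ring
  rw [← hser, hUa, hsq, Up_add, Up_add, Up_one hp, Up_C_mul, Up_C_mul, hW, ha, Zs]
  simp only [map_mul, map_pow, map_ofNat, map_add, map_one]
  ring

/-- The two-point comparison: coefficient `p` of the identity for `a` against coefficient `1` of
the identity for the twin `U_p a`. -/
theorem two_point {p : ℕ} (hp : p ≠ 0) (V : Subring ℂ) (e4 a H : PowerSeries ℂ) (c : ℂ)
    (ha : a = 1 + C c * H) (hH : CoeffIn V H) (hW : Up p (Up p H) = H)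
    (hTr : ∀ n, (p : ℂ) * coeff n (a * a) + coeff (p * n) (Up p a * Up p a) =
      ((p : ℂ) + 1) * coeff n e4)
    (hTr' : ∀ n, (p : ℂ) * coeff n (Up p a * Up p a) +
      coeff (p * n) (Up p (Up p a) * Up p (Up p a)) = ((p : ℂ) + 1) * coeff n e4) :
    ∃ v ∈ V, ((p : ℂ) + 1) * (coeff p e4 - coeff 1 e4) = c ^ 2 * v := by
  have hUa : Up p a = 1 + C c * Up p H := by rw [ha, Up_add, Up_one hp, Up_C_mul]
  have E1 := expand_identity hp e4 a H c ha hW hTr
  have E2 := expand_identity hp e4 (Up p a) (Up p H) c hUa (by rw [hW]) hTr'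
  have e1 := congrArg (coeff p) E1
  have e2 := congrArg (coeff 1) E2
  rw [coeff_C_mul, map_add (coeff p), map_add (coeff p), coeff_C_mul, coeff_C_mul, coeff_C,
    if_neg hp] at e1
  rw [coeff_C_mul, map_add (coeff 1), map_add (coeff 1), coeff_C_mul, coeff_C_mul, coeff_C,
    if_neg one_ne_zero, coeff_Up, mul_one] at e2
  refine ⟨coeff p (Zs p H) - coeff 1 (Zs p (Up p H)),
    V.sub_mem (hH.Zs p p) ((hH.Up p).Zs p 1), ?_⟩
  linear_combination e1 - e2

/-- Squares are Frobenius modulo `2`: the cross terms of `F * F` pair up. -/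
theorem coeff_mul_self_mod_two (V : Subring ℂ) (F : PowerSeries ℂ) (hF : CoeffIn V F) (m : ℕ) :
    ∃ v ∈ V, coeff m (F * F) = 2 * v + (if Even m then (coeff (m / 2) F) ^ 2 else 0) := by
  have key : coeff m (F * F) = ∑ k ∈ Finset.range (m + 1), coeff k F * coeff (m - k) F := by
    rw [coeff_mul]
    exact Finset.Nat.sum_antidiagonal_eq_sum_range_succ (fun i j => coeff i F * coeff j F) m
  rw [key]
  obtain ⟨t, rfl | rfl⟩ := Nat.even_or_odd' m
  · -- `m = 2 t`
    refine ⟨∑ x ∈ Finset.range t, coeff x F * coeff (2 * t - x) F,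
      Subring.sum_mem _ fun x _ => V.mul_mem (hF _) (hF _), ?_⟩
    have hsplit : 2 * t + 1 = t + (t + 1) := by ring
    have hB : ∑ k ∈ Finset.range t, coeff (t + (k + 1)) F * coeff (2 * t - (t + (k + 1))) F =
        ∑ x ∈ Finset.range t, coeff x F * coeff (2 * t - x) F := by
      rw [← Finset.sum_range_reflect]
      refine Finset.sum_congr rfl fun j hj => ?_
      have hj' := Finset.mem_range.mp hj
      rw [show t + (t - 1 - j + 1) = 2 * t - j by omega,
        show 2 * t - (2 * t - j) = j by omega, mul_comm]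
    have hD : coeff (t + 0) F * coeff (2 * t - (t + 0)) F = (coeff (2 * t / 2) F) ^ 2 := by
      rw [show 2 * t - (t + 0) = t by omega, show t + 0 = t by omega,
        show 2 * t / 2 = t by omega, sq]
    rw [hsplit, Finset.sum_range_add, Finset.sum_range_succ', hB, hD, if_pos (by simp)]
    ring
  · -- `m = 2 t + 1`
    refine ⟨∑ x ∈ Finset.range (t + 1), coeff x F * coeff (2 * t + 1 - x) F,
      Subring.sum_mem _ fun x _ => V.mul_mem (hF _) (hF _), ?_⟩
    have hsplit : 2 * t + 1 + 1 = (t + 1) + (t + 1) := by ring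
    have hB : ∑ x ∈ Finset.range (t + 1),
        coeff (t + 1 + x) F * coeff (2 * t + 1 - (t + 1 + x)) F =
        ∑ x ∈ Finset.range (t + 1), coeff x F * coeff (2 * t + 1 - x) F := by
      rw [← Finset.sum_range_reflect]
      refine Finset.sum_congr rfl fun j hj => ?_
      have hj' := Finset.mem_range.mp hj
      rw [show t + 1 + (t + 1 - 1 - j) = 2 * t + 1 - j by omega,
        show 2 * t + 1 - (2 * t + 1 - j) = j by omega, mul_comm]
    rw [hsplit, Finset.sum_range_add, hB, if_neg (by simp)]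
    ring

/-- Write `a = 1 + c · H` with `H` integral. -/
theorem exists_H (V : Subring ℂ) {p : ℕ} (hp : p ≠ 0) (a : PowerSeries ℂ) {c : ℂ} (hc : c ≠ 0)
    (ha0 : coeff 0 a = 1) (ha : ∀ n, 0 < n → ∃ h ∈ V, coeff n a = c * h)
    (hW : ∀ n, coeff (p * (p * n)) a = coeff n a) :
    ∃ H : PowerSeries ℂ, a = 1 + C c * H ∧ CoeffIn V H ∧ Up p (Up p H) = H ∧
      ∀ n, 0 < n → coeff n a = c * coeff n H := by
  refine ⟨PowerSeries.mk fun n => if n = 0 then 0 else coeff n a / c, ?_, ?_, ?_, ?_⟩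
  · ext n
    rcases Nat.eq_zero_or_pos n with rfl | hn
    · simp [ha0]
    · have hn' : n ≠ 0 := hn.ne'
      rw [map_add (coeff n), coeff_C_mul, coeff_mk, if_neg hn', coeff_one, if_neg hn', zero_add,
        mul_div_cancel₀ _ hc]
  · intro n
    rw [coeff_mk]
    split_ifs with hn
    · exact V.zero_mem
    · obtain ⟨h, hh, e⟩ := ha n (Nat.pos_of_ne_zero hn)
      rw [e, mul_div_cancel_left₀ _ hc]
      exact hh
  · ext n
    rw [coeff_Up, coeff_Up, coeff_mk, coeff_mk]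
    rcases Nat.eq_zero_or_pos n with rfl | hn
    · simp
    · have hn' : n ≠ 0 := hn.ne'
      have h2 : p * (p * n) ≠ 0 := mul_ne_zero hp (mul_ne_zero hp hn')
      rw [if_neg h2, if_neg hn', hW]
  · intro n hn
    rw [coeff_mk, if_neg hn.ne', mul_div_cancel₀ _ hc]

/-- **(T1)** `ℓ = 3`, `p ≡ 1 mod 3`: the trace identities for `a` and its twin are incompatible
with `a ≡ 1 mod 3V`. -/
theorem core_T1 {p : ℕ} (hp : p ≠ 0) (hp3 : p % 3 = 1) (V : Subring ℂ) (hV : (3 : ℂ)⁻¹ ∉ V)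
    (e4 a : PowerSeries ℂ) (he1 : coeff 1 e4 = 240)
    (hep : coeff p e4 = 240 * (1 + (p : ℂ) ^ 3))
    (ha0 : coeff 0 a = 1) (ha : ∀ n, 0 < n → ∃ h ∈ V, coeff n a = 3 * h)
    (hW : ∀ n, coeff (p * (p * n)) a = coeff n a)
    (hTr : ∀ n, (p : ℂ) * coeff n (a * a) + coeff (p * n) (Up p a * Up p a) =
      ((p : ℂ) + 1) * coeff n e4)
    (hTr' : ∀ n, (p : ℂ) * coeff n (Up p a * Up p a) +
      coeff (p * n) (Up p (Up p a) * Up p (Up p a)) = ((p : ℂ) + 1) * coeff n e4) : False := by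
  obtain ⟨H, haH, hH, hWH, -⟩ := exists_H V hp a (by norm_num : (3 : ℂ) ≠ 0) ha0 ha hW
  obtain ⟨v, hv, e⟩ := two_point hp V e4 a H 3 haH hH hWH hTr hTr'
  rw [hep, he1] at e
  obtain ⟨t, ht⟩ : ∃ t : ℕ, 80 * (p + 1) * p ^ 3 = 3 * t + 1 := by
    refine ⟨80 * (p + 1) * p ^ 3 / 3, ?_⟩
    have h1 : (80 * (p + 1) * p ^ 3) % 3 = 1 := by
      simp [Nat.mul_mod, Nat.add_mod, Nat.pow_mod, hp3]
    omega
  have htc : (80 : ℂ) * ((p : ℂ) + 1) * (p : ℂ) ^ 3 = 3 * (t : ℂ) + 1 := by exact_mod_cast ht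
  have h3 : (3 : ℂ) * (v - t) = 1 := by linear_combination (-1 / 3 : ℂ) * e + htc
  apply hV
  rw [inv_eq_of_mul_eq_one_right h3]
  exact V.sub_mem hv (natCast_mem V t)

/-- **(T2)** `ℓ = 2`, `p ≡ 1 mod 4`: the trace identities for `a` and its twin are incompatible
with `a ≡ 1 mod 4V`. -/
theorem core_T2 {p : ℕ} (hp : p ≠ 0) (hp4 : p % 4 = 1) (V : Subring ℂ) (hV : (2 : ℂ)⁻¹ ∉ V)
    (e4 a : PowerSeries ℂ) (he : ∀ n, 0 < n → ∃ s : ℤ, coeff n e4 = 240 * (s : ℂ))
    (he1 : coeff 1 e4 = 240) (hep : coeff p e4 = 240 * (1 + (p : ℂ) ^ 3))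
    (ha0 : coeff 0 a = 1) (ha : ∀ n, 0 < n → ∃ h ∈ V, coeff n a = 4 * h)
    (hW : ∀ n, coeff (p * (p * n)) a = coeff n a)
    (hTr : ∀ n, (p : ℂ) * coeff n (a * a) + coeff (p * n) (Up p a * Up p a) =
      ((p : ℂ) + 1) * coeff n e4)
    (hTr' : ∀ n, (p : ℂ) * coeff n (Up p a * Up p a) +
      coeff (p * n) (Up p (Up p a) * Up p (Up p a)) = ((p : ℂ) + 1) * coeff n e4) : False := by
  obtain ⟨k, hk⟩ : ∃ k : ℕ, p = 4 * k + 1 := ⟨p / 4, by omega⟩
  have hkc : (p : ℂ) = 4 * (k : ℂ) + 1 := by exact_mod_cast hk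
  have hodd : ¬ Even p := by
    rw [Nat.not_even_iff]
    omega
  -- Step 1: `a ≡ 1 mod 8V`.
  have ha8 : ∀ n, 0 < n → ∃ h ∈ V, coeff n a = 8 * h := by
    obtain ⟨H, haH, hH, hWH, haH'⟩ := exists_H V hp a (by norm_num : (4 : ℂ) ≠ 0) ha0 ha hW
    have E1 := expand_identity hp e4 a H 4 haH hWH hTr
    intro n hn
    have hn' : n ≠ 0 := hn.ne'
    have e1 := congrArg (coeff n) E1
    rw [coeff_C_mul, map_add (coeff n), map_add (coeff n), coeff_C_mul, coeff_C_mul, coeff_C,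
      if_neg hn', Zs, map_add (coeff n), coeff_C_mul, coeff_Up] at e1
    obtain ⟨s, hs⟩ := he n hn
    obtain ⟨v1, hv1, f1⟩ := coeff_mul_self_mod_two V H hH n
    obtain ⟨v2, hv2, f2⟩ := coeff_mul_self_mod_two V (Up p H) (hH.Up p) (p * n)
    have hδ : (if Even (p * n) then (coeff (p * n / 2) (Up p H)) ^ 2 else 0) =
        (if Even n then (coeff (n / 2) H) ^ 2 else 0) := by
      by_cases hev : Even n
      · have hev' : Even (p * n) := hev.mul_left p
        rw [if_pos hev, if_pos hev']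
        obtain ⟨j, rfl⟩ := hev
        have h1 : p * (j + j) / 2 = p * j := by
          rw [show p * (j + j) = 2 * (p * j) by ring]
          exact Nat.mul_div_cancel_left _ (by norm_num)
        have h2 : (j + j) / 2 = j := by omega
        rw [h1, h2, coeff_Up]
        have := congrArg (coeff j) hWH
        rw [coeff_Up, coeff_Up] at this
        rw [this]
      · have hev' : ¬ Even (p * n) := by
          rw [Nat.even_mul]
          tauto
        rw [if_neg hev, if_neg hev']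
    rw [hδ] at f2
    set δ : ℂ := if Even n then (coeff (n / 2) H) ^ 2 else 0 with hδdef
    have hδV : δ ∈ V := by
      rw [hδdef]
      split_ifs
      · exact V.pow_mem (hH _) 2
      · exact V.zero_mem
    rw [f1, f2, hs, hkc] at e1
    refine ⟨15 * (2 * (k : ℂ) + 1) * (s : ℂ) - ((p : ℂ) * v1 + v2) - (2 * (k : ℂ) + 1) * δ -
      (k : ℂ) * coeff n H, ?_, ?_⟩
    · refine V.sub_mem (V.sub_mem (V.sub_mem ?_ ?_) ?_) ?_
      · exact V.mul_mem (V.mul_mem (by
          have : (15 : ℂ) = ((15 : ℕ) : ℂ) := by norm_num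
          rw [this]; exact natCast_mem V 15) (by
          have : (2 * (k : ℂ) + 1) = ((2 * k + 1 : ℕ) : ℂ) := by push_cast; ring
          rw [this]; exact natCast_mem V _)) (intCast_mem V s)
      · exact V.add_mem (V.mul_mem (natCast_mem V p) hv1) hv2
      · exact V.mul_mem (by
          have : (2 * (k : ℂ) + 1) = ((2 * k + 1 : ℕ) : ℂ) := by push_cast; ring
          rw [this]; exact natCast_mem V _) hδV
      · exact V.mul_mem (natCast_mem V k) (hH n)
    · rw [haH' n hn]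
      linear_combination (-1 / 4 : ℂ) * e1 + (8 * v1) * hkc
  -- Step 2: the two-point comparison modulo `64`.
  obtain ⟨H, haH, hH, hWH, -⟩ := exists_H V hp a (by norm_num : (8 : ℂ) ≠ 0) ha0 ha8 hW
  obtain ⟨v, hv, e⟩ := two_point hp V e4 a H 8 haH hH hWH hTr hTr'
  rw [hep, he1] at e
  obtain ⟨t, ht⟩ : ∃ t : ℕ, 15 * (2 * k + 1) * p ^ 3 = 2 * t + 1 := by
    refine ⟨15 * (2 * k + 1) * p ^ 3 / 2, ?_⟩
    have hp2 : p % 2 = 1 := by omega
    have h1 : (15 * (2 * k + 1) * p ^ 3) % 2 = 1 := by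
      simp [Nat.mul_mod, Nat.add_mod, Nat.pow_mod, hp2]
    omega
  have htc : (15 : ℂ) * (2 * (k : ℂ) + 1) * (p : ℂ) ^ 3 = 2 * (t : ℂ) + 1 := by
    exact_mod_cast ht
  have h2 : (2 : ℂ) * (v - t) = 1 := by
    linear_combination (-1 / 32 : ℂ) * e + htc + (15 / 2 : ℂ) * (p : ℂ) ^ 3 * hkc
  apply hV
  rw [inv_eq_of_mul_eq_one_right h2]
  exact V.sub_mem hv (natCast_mem V t)

/-- **(I)** the coefficient of `q¹` in `Tr(g · f) = 0` (`g = E' - f`, `f` cuspidal):
`m ∣ N = c (p + 1)` (`= (p² - 1)/24` for `c = (p - 1)/24`). -/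
theorem core_I {p : ℕ} (hp : p ≠ 0) (m N : ℤ) (c : ℂ) (hN : (N : ℂ) = c * ((p : ℂ) + 1))
    (g f : PowerSeries ℂ) (hg0 : coeff 0 g = c)
    (hg : ∀ n, 0 < n → ∃ z : ℤ, coeff n g = (m : ℂ) * z)
    (hf0 : coeff 0 f = 0) (hf : ∀ n, ∃ z : ℤ, coeff n f = z)
    (hf1 : ∃ z : ℤ, coeff 1 f = 1 + (m : ℂ) * z)
    (hW : coeff (p * (p * 1)) f = coeff 1 f)
    (hTr : (p : ℂ) * coeff 1 (g * f) + coeff (p * 1) (Up p g * Up p f) = 0) : m ∣ N := by
  have key : ∀ (φ ψ : PowerSeries ℂ) (d : ℕ),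
      coeff d (φ * ψ) = ∑ k ∈ Finset.range (d + 1), coeff k φ * coeff (d - k) ψ := by
    intro φ ψ d
    rw [coeff_mul]
    exact Finset.Nat.sum_antidiagonal_eq_sum_range_succ (fun i j => coeff i φ * coeff j ψ) d
  have h1 : coeff 1 (g * f) = c * coeff 1 f := by
    rw [key]
    simp [Finset.sum_range_succ, hg0, hf0]
  have h2 : ∃ Z : ℤ, coeff (p * 1) (Up p g * Up p f) = c * coeff 1 f + (m : ℂ) * Z := by
    rw [key, mul_one, Finset.sum_range_succ']
    have h0 : coeff 0 (Up p g) * coeff (p - 0) (Up p f) = c * coeff 1 f := by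
      rw [coeff_Up, coeff_Up, mul_zero, hg0, Nat.sub_zero, ← hW, mul_one]
    rw [h0]
    have hsum : ∃ Z : ℤ, ∑ k ∈ Finset.range p,
        coeff (k + 1) (Up p g) * coeff (p - (k + 1)) (Up p f) = (m : ℂ) * Z := by
      refine Finset.sum_induction _ (fun x : ℂ => ∃ Z : ℤ, x = (m : ℂ) * Z) ?_ ⟨0, by simp⟩ ?_
      · rintro x y ⟨Zx, rfl⟩ ⟨Zy, rfl⟩
        exact ⟨Zx + Zy, by push_cast; ring⟩
      · intro k _
        obtain ⟨z, hz⟩ := hg (p * (k + 1)) (Nat.mul_pos (Nat.pos_of_ne_zero hp) (Nat.succ_pos k))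
        obtain ⟨w, hw⟩ := hf (p * (p - (k + 1)))
        refine ⟨z * w, ?_⟩
        rw [coeff_Up, coeff_Up, hz, hw]
        push_cast
        ring
    obtain ⟨Z, hZ⟩ := hsum
    exact ⟨Z, by rw [hZ]; ring⟩
  obtain ⟨Z, hZ⟩ := h2
  obtain ⟨z1, hz1⟩ := hf1
  rw [h1, hZ, hz1] at hTr
  refine ⟨-(N * z1 + Z), ?_⟩
  have : (N : ℂ) = (m : ℂ) * (-((N : ℂ) * z1 + Z)) := by
    rw [hN]
    linear_combination hTr
  exact_mod_cast this

end Fermat.Agent.S16.H77
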