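import Mathlib
import Fermat.Agent.S16.H20.W2
import Fermat.Agent.S16.H78.LevelOneZ
import Fermat.Agent.S16.H77.TraceCore

/-!
# S16, package U-T (helper77): the weight-4 trace identity (T0)

For `G₁ G₂ ∈ M₂(Γ₀(p))` the trace of `G₁ G₂` to level one is
`G₁ G₂ + p⁻¹ U_p((U_p G₁)(U_p G₂)) ∈ M₄(SL₂(ℤ)) = ℂ E₄`, hence on `q`-expansions
`p · a_n(G₁ G₂) + a_{np}((U_p G₁)(U_p G₂)) = (p + 1) a₀(G₁) a₀(G₂) a_n(E₄)`.
-/

set_option autoImplicit false

open UpperHalfPlane ModularForm CongruenceSubgroup Matrix.SpecialLinearGroup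
open scoped MatrixGroups ModularForm Manifold

namespace Fermat.Agent.S16.H77

open Fermat.Agent.S20 Fermat.Agent.S28.H22 Fermat.Agent.S22 Fermat.Agent.S16.H20
open Fermat.Agent.S16.H78

theorem constantCoeff_Up (p : ℕ) (f : PowerSeries ℂ) :
    PowerSeries.constantCoeff (Up p f) = PowerSeries.constantCoeff f := by
  rw [← PowerSeries.coeff_zero_eq_constantCoeff_apply, coeff_Up, mul_zero,
    PowerSeries.coeff_zero_eq_constantCoeff_apply]

theorem an1 {F : ℍ → ℂ} (hF : IsNice 1 F) : AnalyticAt ℂ (cuspFunction 1 F) 0 := by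
  simpa using hF.analyticAt

variable {p : ℕ} [hpp : Fact p.Prime]

/-- The trace of `G₁ G₂` to level one, as a function. -/
theorem trace_mul_eq (G₁ G₂ : ModularForm (Γ0 p) 2) :
    (⇑(ModularForm.trace 𝒮ℒ (G₁.mul G₂)) : ℍ → ℂ) =
      (G₁ : ℍ → ℂ) * G₂ +
        ((p : ℂ)⁻¹) • heckeU (2 + 2) p (heckeU 2 p G₁ * heckeU 2 p G₂) := by
  have hp : p ≠ 0 := hpp.out.ne_zero
  rw [ModularForm.coe_trace]
  let _ : Fintype (𝒮ℒ ⧸ Subgroup.subgroupOf (Γ0 p) 𝒮ℒ) := Fintype.ofFinite _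
  rw [sum_quotient_eq p]
  simp only [quotientFunc_cosetOf, map_one, SlashAction.slash_one]
  have hsum : ∀ b : Fin p, (⇑(G₁.mul G₂) : ℍ → ℂ) ∣[(2 : ℤ) + 2] mapGL ℝ (sigma ((b : ℕ) : ℤ)) =
      ((p : ℂ)⁻¹) • ((heckeU 2 p G₁ * heckeU 2 p G₂) ∣[(2 : ℤ) + 2] heckeMatrix p b) := by
    intro b
    have h1 : (⇑(G₁.mul G₂) : ℍ → ℂ) = (G₁ : ℍ → ℂ) * G₂ := rfl
    have h2 := mul_slash_SL2 2 2 (sigma ((b : ℕ) : ℤ)) (G₁ : ℍ → ℂ) G₂
    have h3 := ModularForm.mul_slash 2 2 (heckeMatrix p b) (heckeU 2 p G₁) (heckeU 2 p G₂)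
    rw [h1, ← SL_slash_eq_mapGL, h2, SL_slash_eq_mapGL, SL_slash_eq_mapGL, slash_sigma_eq G₁ b,
      slash_sigma_eq G₂ b, h3, det_heckeMatrix hp]
    ext z
    simp
    field_simp
  rw [Finset.sum_congr rfl fun b _ => hsum b, ← Finset.smul_sum,
    heckeU_def (2 + 2) p (heckeU 2 p ⇑G₁ * heckeU 2 p ⇑G₂),
    ← Fin.sum_univ_eq_sum_range
      (fun j => (heckeU 2 p G₁ * heckeU 2 p G₂) ∣[(2 : ℤ) + 2] heckeMatrix p j)]
  rfl

/-- `q`-expansion of `U_p G` in terms of `Up`. -/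
theorem qExpansion_heckeU_eq_Up (G : ModularForm (Γ0 p) 2) :
    qExpansion 1 (heckeU 2 p G) = Up p (qExpansion 1 G) := by
  ext n
  rw [coeff_Up, qExpansion_heckeU_coeff p hpp.out.ne_zero G n, mul_comm]

/-- **(T0)** the weight-4 trace identity on `q`-expansions. -/
theorem trace4 (G₁ G₂ : ModularForm (Γ0 p) 2) (n : ℕ) :
    (p : ℂ) * (qExpansion 1 G₁ * qExpansion 1 G₂).coeff n +
        (Up p (qExpansion 1 G₁) * Up p (qExpansion 1 G₂)).coeff (p * n) =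
      ((p : ℂ) + 1) * (qExpansion 1 G₁).coeff 0 * (qExpansion 1 G₂).coeff 0 *
        (qExpansion 1 E₄).coeff n := by
  have hp : p ≠ 0 := hpp.out.ne_zero
  have hpc : (p : ℂ) ≠ 0 := Nat.cast_ne_zero.mpr hp
  have hN1 : IsNice 1 (G₁ : ℍ → ℂ) := isNice_coe 1 G₁
  have hN2 : IsNice 1 (G₂ : ℍ → ℂ) := isNice_coe 1 G₂
  have hU1 : IsNice 1 (heckeU 2 p G₁) := isNice_heckeU 1 G₁
  have hU2 : IsNice 1 (heckeU 2 p G₂) := isNice_heckeU 1 G₂
  have hUU : IsNice 1 (heckeU (2 + 2) p (heckeU 2 p G₁ * heckeU 2 p G₂)) :=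
    isNice_heckeU_of_isNice 1 (2 + 2) p (hU1.mul hU2)
  set t := ModularForm.trace 𝒮ℒ (G₁.mul G₂) with ht
  -- the `q`-expansion of the trace
  have hq : qExpansion 1 (t : ℍ → ℂ) = qExpansion 1 G₁ * qExpansion 1 G₂ +
      ((p : ℂ)⁻¹) • qExpansion 1 (heckeU (2 + 2) p (heckeU 2 p G₁ * heckeU 2 p G₂)) := by
    rw [ht, trace_mul_eq, qExpansion_add (an1 (hN1.mul hN2)) (an1 (hUU.smul _)),
      qExpansion_mul (an1 hN1) (an1 hN2), qExpansion_smul (an1 hUU)]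
  have hcoeff : ∀ n, (qExpansion 1 (t : ℍ → ℂ)).coeff n =
      (qExpansion 1 G₁ * qExpansion 1 G₂).coeff n +
        (p : ℂ)⁻¹ * (Up p (qExpansion 1 G₁) * Up p (qExpansion 1 G₂)).coeff (p * n) := by
    intro n
    rw [hq, map_add, PowerSeries.coeff_smul, smul_eq_mul,
      qCoeff_heckeU_of_isNice (2 + 2) hp (hU1.mul hU2) n, qExpansion_mul (an1 hU1) (an1 hU2),
      qExpansion_heckeU_eq_Up, qExpansion_heckeU_eq_Up, mul_comm n p]
  -- level one of weight 4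
  set c : ℂ := (1 + (p : ℂ)⁻¹) * (qExpansion 1 G₁).coeff 0 * (qExpansion 1 G₂).coeff 0 with hc
  have hL1 : IsL1 ((4 : ℕ) : ℤ) ((t : ℍ → ℂ) - c • (E₄ : ℍ → ℂ)) :=
    ((IsL1.of_form t).cast (by norm_num)).sub (isL1_E4.smul c)
  have hE0 : (qExpansion 1 E₄).coeff 0 = 1 := by
    rw [qExpansion_E4, PowerSeries.coeff_map, E4Z, PowerSeries.coeff_zero_eq_constantCoeff_apply,
      ModularCurve.constantCoeff_eisenstein4]
    simp
  have hqF : qExpansion 1 ((t : ℍ → ℂ) - c • (E₄ : ℍ → ℂ)) =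
      qExpansion 1 (t : ℍ → ℂ) - c • qExpansion 1 E₄ := by
    rw [((IsL1.of_form t).cast (by norm_num : (2 : ℤ) + 2 = ((4 : ℕ) : ℤ))).qExpansion_sub
      (isL1_E4.smul c), isL1_E4.qExpansion_smul]
  have hzero : (t : ℍ → ℂ) - c • (E₄ : ℍ → ℂ) = 0 := by
    refine hL1.eq_zero_of_coeff fun m hm => ?_
    have hm0 : m = 0 := by omega
    subst hm0
    rw [hqF, map_sub, PowerSeries.coeff_smul, smul_eq_mul, hcoeff 0, hE0, mul_zero,
      PowerSeries.coeff_mul]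
    simp [hc, constantCoeff_Up]
    ring
  have hfin := congrArg (fun F => (qExpansion 1 F).coeff n) hzero
  simp only [hqF, map_sub, PowerSeries.coeff_smul, smul_eq_mul, hcoeff n, qExpansion_zero,
    map_zero] at hfin
  rw [hc] at hfin
  field_simp at hfin
  linear_combination hfin

end Fermat.Agent.S16.H77
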