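import Mathlib
import Fermat.Agent.S16.H91.EisQ
import Fermat.Agent.S16.H77.Trace4

/-!
# S16, package U6 (helper77): the trace relation (I)

For a cusp form `f ∈ S₂(Γ₀(p))` with integer coefficients `a_k ≡ σ'(k) mod m` (`k ≥ 1`):
`24 m ∣ (p² - 1) a₁` (all primes `p`), hence `m ∣ (p² - 1)/24` for `p ≥ 5`.
Proof: `g := E' - f`; `Tr(g f) ∈ S₄(SL₂(ℤ)) = 0`; coefficient of `q¹`.
-/

set_option autoImplicit false

open UpperHalfPlane ModularForm CongruenceSubgroup Matrix.SpecialLinearGroup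
open scoped MatrixGroups ModularForm Manifold

namespace Fermat.Agent.S16.H77

open Fermat.Agent.S20 Fermat.Agent.S28.H22 Fermat.Agent.S22 Fermat.Agent.S16.H20
open Fermat.Agent.S16.H78 PowerSeries

/-- Formal core of (I), in the shape `24 m ∣ (p² - 1) a₁`. -/
theorem core_I2 {p : ℕ} (hp : p ≠ 0) (m a1 : ℤ) (g f : PowerSeries ℂ)
    (hg0 : coeff 0 g = ((p : ℂ) - 1) / 24)
    (hg : ∀ n, 0 < n → ∃ z : ℤ, coeff n g = (m : ℂ) * z)
    (hf0 : coeff 0 f = 0) (hf : ∀ n, ∃ z : ℤ, coeff n f = z)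
    (hf1 : coeff 1 f = a1)
    (hW : coeff (p * (p * 1)) f = coeff 1 f)
    (hTr : (p : ℂ) * coeff 1 (g * f) + coeff (p * 1) (Up p g * Up p f) = 0) :
    24 * m ∣ ((p : ℤ) ^ 2 - 1) * a1 := by
  have key : ∀ (φ ψ : PowerSeries ℂ) (d : ℕ),
      coeff d (φ * ψ) = ∑ k ∈ Finset.range (d + 1), coeff k φ * coeff (d - k) ψ := by
    intro φ ψ d
    rw [coeff_mul]
    exact Finset.Nat.sum_antidiagonal_eq_sum_range_succ (fun i j => coeff i φ * coeff j ψ) d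
  have h1 : coeff 1 (g * f) = ((p : ℂ) - 1) / 24 * coeff 1 f := by
    rw [key]
    simp [Finset.sum_range_succ, hg0, hf0]
  have h2 : ∃ Z : ℤ, coeff (p * 1) (Up p g * Up p f) =
      ((p : ℂ) - 1) / 24 * coeff 1 f + (m : ℂ) * Z := by
    rw [key, mul_one, Finset.sum_range_succ']
    have h0 : coeff 0 (Up p g) * coeff (p - 0) (Up p f) = ((p : ℂ) - 1) / 24 * coeff 1 f := by
      rw [coeff_Up, coeff_Up, mul_zero, hg0, Nat.sub_zero, ← hW, mul_one]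
    rw [h0]
    have hsum : ∃ Z : ℤ, ∑ k ∈ Finset.range p,
        coeff (k + 1) (Up p g) * coeff (p - (k + 1)) (Up p f) = (m : ℂ) * Z := by
      refine Finset.sum_induction _ (fun x : ℂ => ∃ Z : ℤ, x = (m : ℂ) * Z) ?_ ⟨0, by simp⟩ ?_
      · rintro x y ⟨Zx, rfl⟩ ⟨Zy, rfl⟩
        exact ⟨Zx + Zy, by push_cast; ring⟩
      · intro k _
        obtain ⟨z, hz⟩ := hg (p * (k + 1)) (Nat.mul_pos (Nat.pos_of_ne_zero hp) (Nat.succ_pos k))
        obtain ⟨w, hw⟩ := hf (p * (p - (k + 1)))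
        refine ⟨z * w, ?_⟩
        rw [coeff_Up, coeff_Up, hz, hw]
        push_cast
        ring
    obtain ⟨Z, hZ⟩ := hsum
    exact ⟨Z, by rw [hZ]; ring⟩
  obtain ⟨Z, hZ⟩ := h2
  rw [h1, hZ, hf1] at hTr
  refine ⟨-Z, ?_⟩
  have : (((p : ℤ) ^ 2 - 1) * a1 : ℂ) = 24 * (m : ℂ) * (-(Z : ℂ)) := by
    linear_combination 24 * hTr
  exact_mod_cast this

variable (p : ℕ) [hpp : Fact p.Prime]

/-- **REL-I** (all primes `p`): `24 m ∣ (p² - 1) a₁`. -/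
theorem rel_I (m : ℤ) (f : CuspForm (Γ0 p) 2) (a : ℕ → ℤ)
    (ha : ∀ k, 0 < k → (qExpansion 1 f).coeff k = (a k : ℂ))
    (hc : ∀ k, 0 < k → m ∣ a k - (H91.sigmaP p k : ℤ)) :
    24 * m ∣ ((p : ℤ) ^ 2 - 1) * a 1 := by
  have : NeZero p := ⟨hpp.out.ne_zero⟩
  have hp : p ≠ 0 := hpp.out.ne_zero
  set fM : ModularForm (Γ0 p) 2 := CuspForm.toModularFormₗ f with hfM
  set g : ModularForm (Γ0 p) 2 := H91.eisP p - fM with hgdef
  have hqf : qExpansion 1 (fM : ℍ → ℂ) = qExpansion 1 (f : ℍ → ℂ) := rfl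
  have hf0 : (qExpansion 1 (fM : ℍ → ℂ)).coeff 0 = 0 := by
    rw [hqf]
    exact CuspFormClass.qExpansion_coeff_zero f one_pos (one_mem_strictPeriods p)
  have hqg : qExpansion 1 (g : ℍ → ℂ) =
      qExpansion 1 (H91.eisP p : ℍ → ℂ) - qExpansion 1 (fM : ℍ → ℂ) := by
    have : (g : ℍ → ℂ) = (H91.eisP p : ℍ → ℂ) - (fM : ℍ → ℂ) := rfl
    rw [this, qExpansion_sub (an1 (isNice_coe 1 (H91.eisP p))) (an1 (isNice_coe 1 fM))]
  have T := trace4 g fM 1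
  rw [hf0, mul_zero, zero_mul] at T
  refine core_I2 hp m (a 1) (qExpansion 1 (g : ℍ → ℂ)) (qExpansion 1 (fM : ℍ → ℂ)) ?_ ?_ hf0
    ?_ ?_ ?_ ?_
  · rw [hqg, map_sub, hf0, sub_zero, H91.qExpansion_eisP_coeff_zero]
  · intro n hn
    obtain ⟨z, hz⟩ := hc n hn
    refine ⟨-z, ?_⟩
    rw [hqg, map_sub, H91.qExpansion_eisP_coeff_of_ne_zero p hn.ne', hqf, ha n hn]
    have hz' : ((a n : ℤ) : ℂ) - ((H91.sigmaP p n : ℤ) : ℂ) = (m : ℂ) * (z : ℂ) := by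
      exact_mod_cast hz
    push_cast at hz' ⊢
    linear_combination -hz'
  · intro n
    rcases Nat.eq_zero_or_pos n with rfl | hn
    · exact ⟨0, by rw [hf0]; simp⟩
    · exact ⟨a n, by rw [hqf, ha n hn]⟩
  · rw [hqf, ha 1 one_pos]
  · have := qExpansion_coeff_mul_mul p fM 1
    rwa [show 1 * p * p = p * (p * 1) by ring] at this
  · rw [mul_one] at T ⊢
    exact T

theorem sigmaP_one : H91.sigmaP p 1 = 1 := by
  have h1 : ¬ p ∣ 1 := by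
    rw [Nat.dvd_one]
    exact hpp.out.ne_one
  simp [H91.sigmaP, Finset.filter_singleton, h1]

theorem twentyFour_dvd (hp5 : 5 ≤ p) : ∃ N : ℤ, (p : ℤ) ^ 2 - 1 = 24 * N := by
  have h2 : p % 2 = 1 := hpp.out.eq_two_or_odd.resolve_left (by omega)
  have h3 : p % 3 ≠ 0 := by
    intro h
    have := (Nat.prime_dvd_prime_iff_eq Nat.prime_three hpp.out).mp (Nat.dvd_of_mod_eq_zero h)
    omega
  have h24 : p % 24 = 1 ∨ p % 24 = 5 ∨ p % 24 = 7 ∨ p % 24 = 11 ∨ p % 24 = 13 ∨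
      p % 24 = 17 ∨ p % 24 = 19 ∨ p % 24 = 23 := by omega
  have hsq : p ^ 2 % 24 = 1 := by
    rw [Nat.pow_mod]
    rcases h24 with h | h | h | h | h | h | h | h <;> rw [h]
  refine ⟨((p ^ 2 / 24 : ℕ) : ℤ), ?_⟩
  have hnat : p ^ 2 = 24 * (p ^ 2 / 24) + 1 := by omega
  have : ((p ^ 2 : ℕ) : ℤ) = ((24 * (p ^ 2 / 24) + 1 : ℕ) : ℤ) := congrArg _ hnat
  push_cast at this ⊢
  linarith

/-- **U6**, the statement of the UPPER skeleton (`p ≥ 5`): `m ∣ (p² - 1)/24`. -/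
theorem dvd_of_congr (hp5 : 5 ≤ p) (m : ℤ) (f : CuspForm (Γ0 p) 2)
    (a : ℕ → ℤ) (ha : ∀ n, (qExpansion 1 f).coeff n = (a n : ℂ))
    (hcong : ∀ n : ℕ, 1 ≤ n → m ∣ a n - (H91.sigmaP p n : ℤ)) :
    m ∣ ((p : ℤ) ^ 2 - 1) / 24 := by
  have h := rel_I p m f a (fun k _ => ha k) (fun k hk => hcong k hk)
  obtain ⟨N, hN⟩ := twentyFour_dvd p hp5
  rw [hN, Int.mul_ediv_cancel_left _ (by norm_num : (24 : ℤ) ≠ 0)]
  obtain ⟨t, ht⟩ := hcong 1 le_rfl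
  rw [sigmaP_one p] at ht
  rw [hN, mul_assoc] at h
  have h2 : m ∣ N * a 1 := (mul_dvd_mul_iff_left (by norm_num : (24 : ℤ) ≠ 0)).mp h
  have h3 : N = N * a 1 - m * (N * t) := by
    have ha1 : a 1 = 1 + m * t := by
      push_cast at ht
      linarith
    rw [ha1]
    ring
  rw [h3]
  exact dvd_sub h2 (dvd_mul_right _ _)

end Fermat.Agent.S16.H77
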